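/-
MLT / Fr3 (helper9): fork of `Lib/Ihara/Old/Zero.lean` for `p = 3` (generated by a rename
script from the frozen file: only the declarations depending on `IhfLevel` / `IsUnit 3` are repeated, with
the prefix `ih`/`Ih` replaced by `jh`/`Jh`; the level hypothesis is `JhfLevel`, see `Fr3/Fr/Three.lean`).
-/
import Mathlib
import Fermat.Agent.Lib.Ihara.Old.Main
import Fermat.Agent.Lib.Ihara.Hm.Deg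
import Fermat.Agent.Lib.Ihara.Hm.Lvl
import Fermat.Agent.Lib.MLT.Fr3.Hm.Lvl
import Fermat.Agent.Lib.Ihara.Rb.Level2
import Fermat.Agent.Lib.MLT.Fr3.Fr.Control
import Fermat.Agent.Lib.MLT.Fr3.Fr.Cyc
import Fermat.Agent.Lib.MLT.Fr3.Fr.Defs
import Fermat.Agent.Lib.MLT.Fr3.Fr.Free
import Fermat.Agent.Lib.MLT.Fr3.Fr.Ind
import Fermat.Agent.Lib.MLT.Fr3.Fr.Main
import Fermat.Agent.Lib.MLT.Fr3.Fr.Ops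
import Fermat.Agent.Lib.MLT.Fr3.Fr.Red
import Fermat.Agent.Lib.MLT.Fr3.Fr.ToolB
import Fermat.Agent.Lib.MLT.Fr3.Hm.ChiPart
import Fermat.Agent.Lib.MLT.Fr3.Hm.Ctrl
import Fermat.Agent.Lib.MLT.Fr3.Hm.Dia
import Fermat.Agent.Lib.MLT.Fr3.Hm.Nil
import Fermat.Agent.Lib.MLT.Fr3.Hm.Part
import Fermat.Agent.Lib.MLT.Fr3.Hm.PartT
import Fermat.Agent.Lib.MLT.Fr3.Hm.Rank
import Fermat.Agent.Lib.MLT.Fr3.Hm.Top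
import Fermat.Agent.Lib.Ihara.Old.Zero

set_option autoImplicit false
set_option linter.unusedSectionVars false
set_option linter.unusedVariables false
set_option linter.style.haveILetI false

namespace Fermat.Agent.Ihara

open Matrix MatrixGroups CongruenceSubgroup ModularCurve ModularCurve.Period Module
open Fermat.Agent.DS Fermat.Agent.T1 Fermat.Agent.T1G Fermat.Agent.T2 IsLocalRing

section Zero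

variable {N : ℕ} [NeZero N] {H : Subgroup (ZMod N)ˣ} {Nm : ℕ} [NeZero Nm]
  {Hm : Subgroup (ZMod Nm)ˣ} {q₀ : ℕ}

end Zero

section Bridge

variable (O : Type) [CommRing O] [IsDomain O] [IsDiscreteValuationRing O] [CharZero O]
  [IsAdicComplete (maximalIdeal O) O] (Nm : ℕ) [NeZero Nm] (hNm : 6 ≤ Nm)
  (Hm : Subgroup (ZMod Nm)ˣ) (Ps : Set ℕ) (θ : ℕ → O)
  {p : ℕ} (hL : JhfLevel p Nm Hm) (hpO : (p : O) ∈ maximalIdeal O)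
  {ℓ₀ : ℕ} (hℓ₀ : ℓ₀.Prime) (hℓ₀M : ¬ ℓ₀ ∣ Nm) (hℓ₀Ps : ℓ₀ ∈ Ps)
  (hθ : IsUnit (θ ℓ₀ - ((ℓ₀ : O) + 1)))
  (N₀ : ℕ) [NeZero N₀] (Q : List ℕ) (hMQ : Nm = Q.foldl (· * ·) N₀) (hndQ : Q.Nodup)
  (hQ : ∀ r ∈ Q, r.Prime ∧ ¬ r ∣ N₀) (hPsQ : ∀ r ∈ Q, r ∈ Ps) (bq : ℕ → O)
  (hθQ : ∀ r ∈ Q, θ r * bq r = ((r : ℕ) : O) ∧ IsUnit (θ r) ∧ IsUnit (θ r - bq r) ∧
    IsUnit (1 - θ r ^ 2))
  (W : WeierstrassCurve ℤ)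
  (hθW : ∀ ℓ ∈ Ps, W.IsGoodPrimeFor ℓ →
    ih4Shift O θ bq Q ℓ - ((W.apOfModel ℓ : ℤ) : O) ∈ maximalIdeal O)
  (hPsW : ∀ ℓ : ℕ, ℓ.Prime → W.IsGoodPrimeFor ℓ → ¬ ℓ ∣ N₀ → ℓ ≠ p → ℓ ∈ Ps)
  (hmin : ¬ W.IsResiduallyModularOfLevel p N₀)

include hNm hL hpO hℓ₀ hℓ₀M hℓ₀Ps hθ hMQ hndQ hQ hPsQ hθQ hθW hPsW hmin in
/-- **[OLD0], arithmetic half**: the `θ`-part at level `Γ_{Hm}(Nm)`, `Nm = N₀ ∏ Q`, vanishes as soon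
as `W` is not residually modular of level `N₀` -/
theorem jhod_bot_of_not_modular : ihmPart O Nm Hm Ps θ = ⊥ := by
  rw [jhm_lvl_eq_bot_iff O Nm hNm Hm Ps θ hL hpO hℓ₀ hℓ₀M hℓ₀Ps hθ N₀ Q hMQ hndQ hQ hPsQ bq hθQ]
  by_contra h
  exact hmin (ihr_modular_of_part_ne_bot' O N₀ hL.prime hpO W Ps _ hθW hPsW h)

end Bridge

section Alg

variable (𝒪 : Type) [CommRing 𝒪] [IsLocalRing 𝒪]
  (R : Type) [CommRing R] [IsDomain R] [IsDiscreteValuationRing R] [CharZero R]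
  [IsAdicComplete (maximalIdeal R) R] [Algebra 𝒪 R] [IsLocalHom (algebraMap 𝒪 R)]
  (Nm : ℕ) [NeZero Nm] (hNm : 6 ≤ Nm)
  (Hm : Subgroup (ZMod Nm)ˣ) (Ps : Set ℕ) (θ : ℕ → 𝒪)
  {p : ℕ} (hL : JhfLevel p Nm Hm) (hpO : (p : 𝒪) ∈ maximalIdeal 𝒪)
  {ℓ₀ : ℕ} (hℓ₀ : ℓ₀.Prime) (hℓ₀M : ¬ ℓ₀ ∣ Nm) (hℓ₀Ps : ℓ₀ ∈ Ps)
  (hθ : IsUnit (θ ℓ₀ - ((ℓ₀ : 𝒪) + 1)))
  (N₀ : ℕ) [NeZero N₀] (Q : List ℕ) (hMQ : Nm = Q.foldl (· * ·) N₀) (hndQ : Q.Nodup)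
  (hQ : ∀ r ∈ Q, r.Prime ∧ ¬ r ∣ N₀) (hPsQ : ∀ r ∈ Q, r ∈ Ps) (bq : ℕ → 𝒪)
  (hθQ : ∀ r ∈ Q, θ r * bq r = ((r : ℕ) : 𝒪) ∧ IsUnit (θ r) ∧ IsUnit (θ r - bq r) ∧
    IsUnit (1 - θ r ^ 2))
  (W : WeierstrassCurve ℤ)
  (hθW : ∀ ℓ ∈ Ps, W.IsGoodPrimeFor ℓ →
    ih4Shift 𝒪 θ bq Q ℓ - ((W.apOfModel ℓ : ℤ) : 𝒪) ∈ maximalIdeal 𝒪)
  (hPsW : ∀ ℓ : ℕ, ℓ.Prime → W.IsGoodPrimeFor ℓ → ¬ ℓ ∣ N₀ → ℓ ≠ p → ℓ ∈ Ps)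
  (hmin : ¬ W.IsResiduallyModularOfLevel p N₀)

include hNm hL hpO hℓ₀ hℓ₀M hℓ₀Ps hθ hMQ hndQ hQ hPsQ hθQ hθW hPsW hmin in
/-- **[OLD0], arithmetic half, AT THE POINTS**: the eigensystem `θ`, `bq` lives over `𝒪` (with the
hypotheses of `jhod_bot_of_not_modular` over `𝒪`, where `𝒪` is just a local ring), the coefficient
ring `R` is any complete DVR of characteristic `0` which is a local `𝒪`-algebra (e.g. `R = P.R` for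
an `AlpqPoint 𝒪 A`); the `θ`-part with coefficients `R` at level `Γ_{Hm}(Nm)` vanishes -/
theorem jhod_bot_of_not_modular_alg :
    ihmPart R Nm Hm Ps (fun ℓ => algebraMap 𝒪 R (θ ℓ)) = ⊥ := by
  have hmem : ∀ x : 𝒪, x ∈ maximalIdeal 𝒪 → algebraMap 𝒪 R x ∈ maximalIdeal R :=
    fun x hx => map_nonunit (algebraMap 𝒪 R) x hx
  refine jhod_bot_of_not_modular R Nm hNm Hm Ps (fun ℓ => algebraMap 𝒪 R (θ ℓ)) hL ?_ hℓ₀ hℓ₀M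
    hℓ₀Ps ?_ N₀ Q hMQ hndQ hQ hPsQ (fun ℓ => algebraMap 𝒪 R (bq ℓ)) ?_ W ?_ hPsW hmin
  · have h := hmem _ hpO
    rwa [map_natCast] at h
  · have h := hθ.map (algebraMap 𝒪 R)
    simpa using h
  · intro r hr
    obtain ⟨h1, h2, h3, h4⟩ := hθQ r hr
    refine ⟨?_, h2.map _, ?_, ?_⟩
    · rw [← map_mul, h1, map_natCast]
    · simpa using h3.map (algebraMap 𝒪 R)
    · simpa using h4.map (algebraMap 𝒪 R)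
  · intro ℓ hℓ hg
    rw [ihod_shift_map]
    have h := hmem _ (hθW ℓ hℓ hg)
    simpa using h

end Alg

section Final

variable {N : ℕ} [NeZero N] {H : Subgroup (ZMod N)ˣ} {Nm : ℕ} [NeZero Nm]
  {Hm : Subgroup (ZMod Nm)ˣ} {q₀ : ℕ}

/-- **(I-a) [OLD0], final form**: `N = Nm q₀`, `Nm = N₀ ∏ Q`, `H` the full preimage of `Hm`,
`O` an ARBITRARY complete DVR of characteristic `0` and residue characteristic `p`; if `W` is not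
residually modular of level `N₀` then `d₁ c = 0 ∧ d₂ c = 0` for every class `c` of level `Γ_H(N)`
in the `θ`-part, `θ ≡ a_ℓ(W)` (shifted at the Taylor–Wiles primes `Q`) -/
theorem jhod_zero_of_not_modular (hq₀ : q₀.Prime) (heq : N = Nm * q₀) (hnd : ¬ q₀ ∣ Nm)
    (hH : ∀ (h : Nm ∣ N) (x : (ZMod N)ˣ), x ∈ H ↔ ZMod.unitsMap h x ∈ Hm)
    (O : Type) [CommRing O] [IsDomain O] [IsDiscreteValuationRing O] [CharZero O]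
    [IsAdicComplete (maximalIdeal O) O]
    {I : Type} [Fintype I] (C : T2fSys₂ (ihfGammaH N H) (ihfGammaH Nm Hm) I)
    (hC : ∀ i, ∃ g : ihfGammaH Nm Hm, C.rep i = ((g : SL(2, ℤ)) : Matrix (Fin 2) (Fin 2) ℤ))
    (W : tdmCosetSys (ihfGammaH N H) Unit) (a b : ℤ) (hab : (q₀ : ℤ) * a - (Nm : ℤ) * b = 1)
    (hW : W.rep () = t2wMat Nm q₀ a b)
    {Ps Ps' : Set ℕ} (hPs : Ps' ⊆ Ps) (hq₀Ps : q₀ ∉ Ps') (θ : ℕ → O)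
    (hNm : 6 ≤ Nm) {p : ℕ} (hL : JhfLevel p Nm Hm) (hpO : (p : O) ∈ maximalIdeal O)
    {ℓ₀ : ℕ} (hℓ₀ : ℓ₀.Prime) (hℓ₀M : ¬ ℓ₀ ∣ Nm) (hℓ₀Ps : ℓ₀ ∈ Ps')
    (hθ : IsUnit (θ ℓ₀ - ((ℓ₀ : O) + 1)))
    (N₀ : ℕ) [NeZero N₀] (Q : List ℕ) (hMQ : Nm = Q.foldl (· * ·) N₀) (hndQ : Q.Nodup)
    (hQ : ∀ r ∈ Q, r.Prime ∧ ¬ r ∣ N₀) (hPsQ : ∀ r ∈ Q, r ∈ Ps') (bq : ℕ → O)
    (hθQ : ∀ r ∈ Q, θ r * bq r = ((r : ℕ) : O) ∧ IsUnit (θ r) ∧ IsUnit (θ r - bq r) ∧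
      IsUnit (1 - θ r ^ 2))
    (E : WeierstrassCurve ℤ)
    (hθW : ∀ ℓ ∈ Ps', E.IsGoodPrimeFor ℓ →
      ih4Shift O θ bq Q ℓ - ((E.apOfModel ℓ : ℤ) : O) ∈ maximalIdeal O)
    (hPsW : ∀ ℓ : ℕ, ℓ.Prime → E.IsGoodPrimeFor ℓ → ¬ ℓ ∣ N₀ → ℓ ≠ p → ℓ ∈ Ps')
    (hmin : ¬ E.IsResiduallyModularOfLevel p N₀)
    (c : IhfH O O N H) (hc : c ∈ ihmPart O N H Ps θ) :
    C.corPar O O c = 0 ∧ C.corPar O O (W.homPar O O c) = 0 :=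
  ihod_zero hq₀ heq hnd hH O C hC W a b hab hW hPs hq₀Ps θ
    (jhod_bot_of_not_modular O Nm hNm Hm Ps' θ hL hpO hℓ₀ hℓ₀M hℓ₀Ps hθ N₀ Q hMQ hndQ hQ hPsQ bq
      hθQ E hθW hPsW hmin) c hc

end Final

end Fermat.Agent.Ihara
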